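/-
S55 / NIT / Adapt : SKELETON.  WIP file (contains `sorry`): never import it from a landed file.
Each node `AD-x` is a task; the owner proves it in `Fermat/Agent/S55/NIT/Adapt/<Name>.lean` with
EXACTLY this statement, namespace `Fermat.Agent.S55.NIT.Adapt`.
-/
import Fermat.Agent.S55.NIT.Adapt.Defs

set_option autoImplicit false

namespace Fermat.Agent.S55.NIT.Adapt.WIP

open IsDedekindDomain NumberField WithZero Fermat.Agent.S55.NIT Fermat.Agent.S55.NIT.Adapt

variable {K : Type*} [Field K] [NumberField K] {v : Pl K} {Kh : Type*} [Field Kh] [Algebra K Kh]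

/-- AD-0 (file Basic.lean). Multiplicative density. -/
theorem exists_unit_close (E : DenseExt v Kh) (ξ : Kh) (hξ : ξ ≠ 0) (n : ℕ) :
    ∃ x : Kˣ, E.vh (ξ / algebraMap K Kh (x : K) - 1) < exp (-(n : ℤ)) := sorry

/-- AD-0b (file Basic.lean). `1 + 𝔪^(n+1)` is stable under powers. -/
theorem vh_pow_sub_one_lt (E : DenseExt v Kh) (t : Kh) (n p : ℕ)
    (ht : E.vh (t - 1) < exp (-(n : ℤ))) : E.vh (t ^ p - 1) < exp (-(n : ℤ)) := sorry

/-- AD-0c (file Basic.lean). Membership in `pu` read in `Kh`. -/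
theorem mem_pu_iff (E : DenseExt v Kh) (x : Kˣ) (n : ℕ) :
    x ∈ pu v n ↔ E.vh (algebraMap K Kh (x : K) - 1) < exp (-(n : ℤ)) := sorry

/-- AD-1 (file Pow.lean). -/
theorem mem_locPow_iff (E : DenseExt v Kh) {p : ℕ} (hH : HenselPow E p) (x : Kˣ) :
    x ∈ locPow K p v ↔ ∃ y : Kh, y ^ p = algebraMap K Kh (x : K) := sorry

/-- AD-2 (file Pow.lean). -/
theorem exists_mul_pow_eq (E : DenseExt v Kh) {p : ℕ} (hH : HenselPow E p) (ξ : Kh) (hξ : ξ ≠ 0) :
    ∃ (x : Kˣ) (y : Kh), ξ = algebraMap K Kh (x : K) * y ^ p := sorry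

/-- AD-3 (file Pow.lean). `Kˣ / locPow ≃ Khˣ / p`. -/
theorem index_locPow (E : DenseExt v Kh) {p : ℕ} (hH : HenselPow E p) :
    (locPow K p v).index = ((powMonoidHom p : Khˣ →* Khˣ).range).index := sorry

section Norm

variable {L : Type*} [Field L] [NumberField L] [Algebra K L]
  {Lh : Type*} [CommRing Lh] [Algebra Kh Lh] [Algebra L Lh] [Algebra K Lh]
  [IsScalarTower K Kh Lh] [IsScalarTower K L Lh]

/-- AD-4 (file NormBC.lean). The norm commutes with base change.  Proof:
`Algebra.norm_eq_matrix_det` for `b` and `bh`; the matrix of `algebraMap L Lh y` in `bh` is the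
image of the matrix of `y` in `b`; `RingHom.map_det`. -/
theorem norm_baseChange (hBC : IsBaseChange' K L Kh Lh) (y : L) :
    Algebra.norm Kh (algebraMap L Lh y) = algebraMap K Kh (Algebra.norm K y) := sorry

/-- AD-5a (file Cont.lean). Polynomial maps are continuous for a valuation. -/
theorem mvPolynomial_continuous {F : Type*} [Field F] (w : Valuation F ℤᵐ⁰) {ι : Type} [Fintype ι]
    (P : MvPolynomial ι F) (c : ι → F) (n : ℕ) :
    ∃ m : ℕ, ∀ c' : ι → F, (∀ i, w (c' i - c i) < exp (-(m : ℤ))) →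
      w (MvPolynomial.eval c' P - MvPolynomial.eval c P) < exp (-(n : ℤ)) := sorry

/-- AD-5b (file Cont.lean). The norm of a finite free algebra is a polynomial in the coordinates. -/
theorem exists_norm_polynomial {F A : Type*} [Field F] [CommRing A] [Algebra F A] {ι : Type}
    [Fintype ι] (b : Module.Basis ι F A) :
    ∃ P : MvPolynomial ι F, ∀ c : ι → F, Algebra.norm F (∑ i, c i • b i) = MvPolynomial.eval c P :=
  sorry

/-- AD-5 (file NormDense.lean). Norms of global elements are dense in the norms from `Lh`. -/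
theorem exists_norm_close (E : DenseExt v Kh) (hBC : IsBaseChange' K L Kh Lh) (η : Lh) (n : ℕ) :
    ∃ y : L, E.vh (Algebra.norm Kh η - algebraMap K Kh (Algebra.norm K y)) < exp (-(n : ℤ)) := sorry

/-- AD-6 (file Norm.lean). -/
theorem mem_locNorm_iff (E : DenseExt v Kh) (hBC : IsBaseChange' K L Kh Lh) (hO : NormOpen E Lh)
    (x : Kˣ) : x ∈ locNorm K L v ↔ ∃ y : Lh, Algebra.norm Kh y = algebraMap K Kh (x : K) := sorry

/-- AD-6b (file Norm.lean). Hensel gives openness of the norm group in degree `p`. -/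
theorem normOpen_of_henselPow (E : DenseExt v Kh) {p : ℕ} (hH : HenselPow E p)
    (hdeg : Module.finrank Kh Lh = p) : NormOpen E Lh := sorry

/-- AD-7 (file Norm.lean). -/
theorem exists_mul_norm_eq (E : DenseExt v Kh) (hO : NormOpen E Lh) (ξ : Kh) (hξ : ξ ≠ 0) :
    ∃ (x : Kˣ) (y : Lh), ξ = algebraMap K Kh (x : K) * Algebra.norm Kh y := sorry

/-- AD-8 (file Norm.lean). `Kˣ / locNorm ≃ Khˣ / N Lhˣ`. -/
theorem index_locNorm (E : DenseExt v Kh) (hBC : IsBaseChange' K L Kh Lh) (hO : NormOpen E Lh) :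
    (locNorm K L v).index = ((Units.map (Algebra.norm Kh : Lh →* Kh)).range).index := sorry

/-- AD-9 (file Norm.lean). The form needed for `WildInput`. -/
theorem locNorm_ne_top_of_not_norm (E : DenseExt v Kh) (hBC : IsBaseChange' K L Kh Lh)
    (hO : NormOpen E Lh) (ξ : Kh) (hξ : ξ ≠ 0) (hn : ∀ y : Lh, Algebra.norm Kh y ≠ ξ) :
    locNorm K L v ≠ ⊤ := sorry

/-- AD-10 (file BaseChange.lean). How to get `IsBaseChange'` for fields: equal degrees and `Lh` is
generated by `L` over `Kh`. -/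
theorem isBaseChange'_of_finrank_eq {Lf : Type*} [Field Lf] [Algebra Kh Lf] [Algebra L Lf]
    [Algebra K Lf] [IsScalarTower K Kh Lf] [IsScalarTower K L Lf]
    (hdeg : Module.finrank Kh Lf = Module.finrank K L)
    (hgen : Algebra.adjoin Kh (Set.range (algebraMap L Lf)) = ⊤) :
    IsBaseChange' K L Kh Lf := sorry

end Norm

end Fermat.Agent.S55.NIT.Adapt.WIP
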